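import Mathlib
import Fermat.Prelude.Def_ModularForm_HeckeOperator

/-!
# The Hecke double coset of a prime `ℓ ∤ N` for `Γ₀(N)`

`DeltaZ N ℓ = {M ∈ M₂(ℤ) : det M = ℓ, N ∣ M 1 0}` is the disjoint union of the cosets
`Γ₀(N) · r`, `r ∈ {[[1,j],[0,ℓ]] : j < ℓ} ∪ {[[ℓ,0],[0,1]]}`, and it is stable under the adjugate.
-/

set_option autoImplicit false

open Matrix
open scoped MatrixGroups

noncomputable section

namespace Fermat.Agent.Lib.Pet695

variable (N ℓ : ℕ)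

/-- integer matrices of determinant `ℓ` with lower left entry divisible by `N` -/
def DeltaZ : Set (Matrix (Fin 2) (Fin 2) ℤ) := {M | M.det = (ℓ : ℤ) ∧ (N : ℤ) ∣ M 1 0}

/-- the standard representatives -/
def repZ : Option (Fin ℓ) → Matrix (Fin 2) (Fin 2) ℤ
  | none => !![(ℓ : ℤ), 0; 0, 1]
  | some j => !![1, ((j : ℕ) : ℤ); 0, (ℓ : ℤ)]

variable {N ℓ}

theorem det_repZ (x : Option (Fin ℓ)) : (repZ ℓ x).det = (ℓ : ℤ) := by
  cases x <;> simp [repZ, Matrix.det_fin_two_of]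

theorem sl_det_eq (g : SL(2, ℤ)) : g 0 0 * g 1 1 - g 0 1 * g 1 0 = 1 := by
  have h := g.det_coe
  rwa [Matrix.det_fin_two] at h

theorem gamma0_dvd {g : SL(2, ℤ)} (hg : g ∈ CongruenceSubgroup.Gamma0 N) : (N : ℤ) ∣ g 1 0 :=
  (ZMod.intCast_zmod_eq_zero_iff_dvd _ _).mp (CongruenceSubgroup.Gamma0_mem.mp hg)

theorem mem_gamma0_of_dvd {g : SL(2, ℤ)} (hg : (N : ℤ) ∣ g 1 0) :
    g ∈ CongruenceSubgroup.Gamma0 N :=
  CongruenceSubgroup.Gamma0_mem.mpr ((ZMod.intCast_zmod_eq_zero_iff_dvd _ _).mpr hg)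

theorem mul_repZ_none (A : Matrix (Fin 2) (Fin 2) ℤ) :
    A * repZ ℓ none = !![A 0 0 * ℓ, A 0 1; A 1 0 * ℓ, A 1 1] := by
  ext i j
  fin_cases i <;> fin_cases j <;> simp [repZ, Matrix.mul_apply, Fin.sum_univ_two]

theorem mul_repZ_some (A : Matrix (Fin 2) (Fin 2) ℤ) (j : Fin ℓ) :
    A * repZ ℓ (some j) =
      !![A 0 0, A 0 0 * ((j : ℕ) : ℤ) + A 0 1 * ℓ; A 1 0, A 1 0 * ((j : ℕ) : ℤ) + A 1 1 * ℓ] := by
  ext i j'
  fin_cases i <;> fin_cases j' <;> simp [repZ, Matrix.mul_apply, Fin.sum_univ_two]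

theorem mul_repZ_mem (g : CongruenceSubgroup.Gamma0 N) (x : Option (Fin ℓ)) :
    (g : SL(2, ℤ)).val * repZ ℓ x ∈ DeltaZ N ℓ := by
  refine ⟨by rw [Matrix.det_mul, det_repZ, (g : SL(2, ℤ)).det_coe, one_mul], ?_⟩
  have h := gamma0_dvd g.2
  cases x with
  | none => rw [mul_repZ_none]; simpa using h.mul_right _
  | some j => rw [mul_repZ_some]; simpa using h

/-- the map `(γ, r) ↦ γ r` -/
def mulRep (p : CongruenceSubgroup.Gamma0 N × Option (Fin ℓ)) : DeltaZ N ℓ :=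
  ⟨(p.1 : SL(2, ℤ)).val * repZ ℓ p.2, mul_repZ_mem p.1 p.2⟩

theorem sl_ext {g h : SL(2, ℤ)} (h00 : g 0 0 = h 0 0) (h01 : g 0 1 = h 0 1)
    (h10 : g 1 0 = h 1 0) (h11 : g 1 1 = h 1 1) : g = h := by
  ext i j
  fin_cases i <;> fin_cases j <;> assumption

theorem not_dvd_col (hℓ : ℓ.Prime) (g : SL(2, ℤ)) : ¬ ((ℓ : ℤ) ∣ g 0 0 ∧ (ℓ : ℤ) ∣ g 1 0) := by
  rintro ⟨h1, h2⟩
  have h3 : (ℓ : ℤ) ∣ g 0 0 * g 1 1 - g 0 1 * g 1 0 :=
    dvd_sub (h1.mul_right _) (h2.mul_left _)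
  rw [sl_det_eq] at h3
  have := Int.natAbs_dvd_natAbs.mpr h3
  simp at this
  exact hℓ.one_lt.ne' this

theorem mulRep_injective (hℓ : ℓ.Prime) : Function.Injective (mulRep (N := N) (ℓ := ℓ)) := by
  have hℓ0 : (ℓ : ℤ) ≠ 0 := by exact_mod_cast hℓ.ne_zero
  rintro ⟨⟨g, hg⟩, x⟩ ⟨⟨g', hg'⟩, x'⟩ h
  have hM : g.val * repZ ℓ x = g'.val * repZ ℓ x' := congrArg Subtype.val h
  have e00 := congrFun (congrFun hM 0) 0
  have e01 := congrFun (congrFun hM 0) 1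
  have e10 := congrFun (congrFun hM 1) 0
  have e11 := congrFun (congrFun hM 1) 1
  cases x with
  | none =>
    cases x' with
    | none =>
      simp only [mul_repZ_none, Matrix.of_apply, Matrix.cons_val', Matrix.cons_val_zero,
        Matrix.cons_val_one, Matrix.cons_val_fin_one] at e00 e01 e10 e11
      have : g = g' := sl_ext (mul_right_cancel₀ hℓ0 e00) e01 (mul_right_cancel₀ hℓ0 e10) e11
      subst this
      rfl
    | some j' =>
      simp only [mul_repZ_none, mul_repZ_some, Matrix.of_apply, Matrix.cons_val',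
        Matrix.cons_val_zero, Matrix.cons_val_one, Matrix.cons_val_fin_one] at e00 e01 e10 e11
      exact absurd ⟨⟨_, by rw [← e00, mul_comm]⟩, ⟨_, by rw [← e10, mul_comm]⟩⟩
        (not_dvd_col hℓ g')
  | some j =>
    cases x' with
    | none =>
      simp only [mul_repZ_none, mul_repZ_some, Matrix.of_apply, Matrix.cons_val',
        Matrix.cons_val_zero, Matrix.cons_val_one, Matrix.cons_val_fin_one] at e00 e01 e10 e11
      exact absurd ⟨⟨_, by rw [e00, mul_comm]⟩, ⟨_, by rw [e10, mul_comm]⟩⟩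
        (not_dvd_col hℓ g)
    | some j' =>
      simp only [mul_repZ_some, Matrix.of_apply, Matrix.cons_val',
        Matrix.cons_val_zero, Matrix.cons_val_one, Matrix.cons_val_fin_one] at e00 e01 e10 e11
      -- ℓ ∣ a (j - j'), ℓ ∣ c (j - j')
      have d1 : (ℓ : ℤ) ∣ g 0 0 * (((j : ℕ) : ℤ) - ((j' : ℕ) : ℤ)) :=
        ⟨g' 0 1 - g 0 1, by rw [e00] at e01 ⊢; linear_combination e01⟩
      have d2 : (ℓ : ℤ) ∣ g 1 0 * (((j : ℕ) : ℤ) - ((j' : ℕ) : ℤ)) :=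
        ⟨g' 1 1 - g 1 1, by rw [e10] at e11 ⊢; linear_combination e11⟩
      have hp : Prime (ℓ : ℤ) := Nat.prime_iff_prime_int.mp hℓ
      have hjj : (ℓ : ℤ) ∣ ((j : ℕ) : ℤ) - ((j' : ℕ) : ℤ) := by
        by_contra hn
        exact not_dvd_col hℓ g ⟨(hp.dvd_or_dvd d1).resolve_right hn,
          (hp.dvd_or_dvd d2).resolve_right hn⟩
      have hjeq : (j : ℕ) = (j' : ℕ) := by
        have h1 : ((j : ℕ) : ℤ) ≡ ((j' : ℕ) : ℤ) [ZMOD (ℓ : ℤ)] :=
          (Int.modEq_iff_dvd.mpr hjj).symm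
        have h2 : (j : ℕ) ≡ (j' : ℕ) [MOD ℓ] := Int.natCast_modEq_iff.mp h1
        exact Nat.ModEq.eq_of_lt_of_lt h2 j.2 j'.2
      have hj : j = j' := Fin.ext hjeq
      subst hj
      have : g = g' := sl_ext e00
        (mul_right_cancel₀ hℓ0 (by rw [e00] at e01; linear_combination e01)) e10
        (mul_right_cancel₀ hℓ0 (by rw [e10] at e11; linear_combination e11))
      subst this
      rfl

theorem mulRep_surjective (hℓ : ℓ.Prime) (hℓN : ¬ ℓ ∣ N) :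
    Function.Surjective (mulRep (N := N) (ℓ := ℓ)) := by
  have : Fact ℓ.Prime := ⟨hℓ⟩
  have hℓ0 : (ℓ : ℤ) ≠ 0 := by exact_mod_cast hℓ.ne_zero
  rintro ⟨M, hdet, hN⟩
  rw [Matrix.det_fin_two] at hdet
  by_cases hcase : (ℓ : ℤ) ∣ M 0 0 ∧ (ℓ : ℤ) ∣ M 1 0
  · obtain ⟨⟨a', ha'⟩, ⟨c', hc'⟩⟩ := hcase
    have hdet1 : a' * M 1 1 - M 0 1 * c' = 1 := by
      apply mul_left_cancel₀ hℓ0
      rw [ha', hc'] at hdet
      linear_combination hdet
    have hNc : (N : ℤ) ∣ c' := by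
      have hcop : IsCoprime (N : ℤ) (ℓ : ℤ) := by
        rw [Int.isCoprime_iff_gcd_eq_one, Int.gcd_natCast_natCast]
        exact (Nat.coprime_comm.mp ((Nat.Prime.coprime_iff_not_dvd hℓ).mpr hℓN))
      rw [hc'] at hN
      exact hcop.dvd_of_dvd_mul_left hN
    let g : SL(2, ℤ) := ⟨!![a', M 0 1; c', M 1 1], by rw [Matrix.det_fin_two_of]; exact hdet1⟩
    have hg : g ∈ CongruenceSubgroup.Gamma0 N := mem_gamma0_of_dvd (by simpa [g] using hNc)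
    refine ⟨(⟨g, hg⟩, none), Subtype.ext ?_⟩
    show g.val * repZ ℓ none = M
    rw [mul_repZ_none]
    ext i j
    fin_cases i <;> fin_cases j <;> simp [g, ha', hc', mul_comm]
  · -- find `j`
    have hz : ((M 0 0 : ℤ) : ZMod ℓ) * ((M 1 1 : ℤ) : ZMod ℓ)
        = ((M 0 1 : ℤ) : ZMod ℓ) * ((M 1 0 : ℤ) : ZMod ℓ) := by
      have h := congrArg (fun x : ℤ => (x : ZMod ℓ)) hdet
      simp only [Int.cast_sub, Int.cast_mul, Int.cast_natCast, ZMod.natCast_self] at h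
      exact sub_eq_zero.mp h
    obtain ⟨t, ht1, ht2⟩ : ∃ t : ZMod ℓ, ((M 0 1 : ℤ) : ZMod ℓ) = ((M 0 0 : ℤ) : ZMod ℓ) * t ∧
        ((M 1 1 : ℤ) : ZMod ℓ) = ((M 1 0 : ℤ) : ZMod ℓ) * t := by
      by_cases ha : ((M 0 0 : ℤ) : ZMod ℓ) = 0
      · have hc : ((M 1 0 : ℤ) : ZMod ℓ) ≠ 0 := by
          intro hc
          exact hcase ⟨(ZMod.intCast_zmod_eq_zero_iff_dvd _ _).mp ha,
            (ZMod.intCast_zmod_eq_zero_iff_dvd _ _).mp hc⟩
        refine ⟨((M 1 1 : ℤ) : ZMod ℓ) / ((M 1 0 : ℤ) : ZMod ℓ), ?_, ?_⟩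
        · rw [ha, zero_mul] at hz ⊢
          exact (mul_eq_zero.mp hz.symm).resolve_right hc
        · field_simp
      · refine ⟨((M 0 1 : ℤ) : ZMod ℓ) / ((M 0 0 : ℤ) : ZMod ℓ), ?_, ?_⟩
        · field_simp
        · field_simp
          rw [mul_comm, hz, mul_comm]
    have hj1 : (ℓ : ℤ) ∣ M 0 1 - M 0 0 * ((t.val : ℕ) : ℤ) := by
      rw [← ZMod.intCast_zmod_eq_zero_iff_dvd]
      push_cast
      rw [ZMod.natCast_zmod_val, ht1, sub_self]
    have hj2 : (ℓ : ℤ) ∣ M 1 1 - M 1 0 * ((t.val : ℕ) : ℤ) := by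
      rw [← ZMod.intCast_zmod_eq_zero_iff_dvd]
      push_cast
      rw [ZMod.natCast_zmod_val, ht2, sub_self]
    obtain ⟨b', hb'⟩ := hj1
    obtain ⟨d', hd'⟩ := hj2
    have hdet1 : M 0 0 * d' - b' * M 1 0 = 1 := by
      apply mul_left_cancel₀ hℓ0
      linear_combination hdet - M 0 0 * hd' + M 1 0 * hb'
    let g : SL(2, ℤ) := ⟨!![M 0 0, b'; M 1 0, d'], by rw [Matrix.det_fin_two_of]; exact hdet1⟩
    have hg : g ∈ CongruenceSubgroup.Gamma0 N := mem_gamma0_of_dvd (by simpa [g] using hN)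
    refine ⟨(⟨g, hg⟩, some ⟨t.val, ZMod.val_lt t⟩), Subtype.ext ?_⟩
    show g.val * repZ ℓ (some ⟨t.val, ZMod.val_lt t⟩) = M
    rw [mul_repZ_some]
    ext i j
    fin_cases i <;> fin_cases j
    · simp [g]
    · simp only [g, Fin.mk_one, Matrix.of_apply, Matrix.cons_val', Matrix.cons_val_zero,
        Matrix.cons_val_one, Matrix.cons_val_fin_one]
      show M 0 0 * ((t.val : ℕ) : ℤ) + b' * ℓ = M 0 1
      linear_combination -hb'
    · simp [g]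
    · simp only [g, Fin.mk_one, Matrix.of_apply, Matrix.cons_val', Matrix.cons_val_zero,
        Matrix.cons_val_one, Matrix.cons_val_fin_one]
      show M 1 0 * ((t.val : ℕ) : ℤ) + d' * ℓ = M 1 1
      linear_combination -hd'

/-- The coset decomposition `Γ₀(N) × R ≃ Δ`. -/
def eZ (hℓ : ℓ.Prime) (hℓN : ¬ ℓ ∣ N) :
    CongruenceSubgroup.Gamma0 N × Option (Fin ℓ) ≃ DeltaZ N ℓ :=
  Equiv.ofBijective mulRep ⟨mulRep_injective hℓ, mulRep_surjective hℓ hℓN⟩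

theorem eZ_apply (hℓ : ℓ.Prime) (hℓN : ¬ ℓ ∣ N) (g : CongruenceSubgroup.Gamma0 N)
    (x : Option (Fin ℓ)) : ((eZ hℓ hℓN (g, x) : DeltaZ N ℓ) : Matrix (Fin 2) (Fin 2) ℤ)
      = (g : SL(2, ℤ)).val * repZ ℓ x := rfl

theorem adjugate_mem {M : Matrix (Fin 2) (Fin 2) ℤ} (hM : M ∈ DeltaZ N ℓ) :
    M.adjugate ∈ DeltaZ N ℓ := by
  refine ⟨?_, ?_⟩
  · rw [Matrix.det_adjugate, hM.1]; simp
  · rw [Matrix.adjugate_fin_two]
    simpa using hM.2

/-- The adjugate involution of `Δ`. -/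
def starZ : DeltaZ N ℓ ≃ DeltaZ N ℓ where
  toFun M := ⟨M.1.adjugate, adjugate_mem M.2⟩
  invFun M := ⟨M.1.adjugate, adjugate_mem M.2⟩
  left_inv M := Subtype.ext (by
    show M.1.adjugate.adjugate = M.1
    rw [Matrix.adjugate_adjugate _ (by simp)]; simp)
  right_inv M := Subtype.ext (by
    show M.1.adjugate.adjugate = M.1
    rw [Matrix.adjugate_adjugate _ (by simp)]; simp)

end Fermat.Agent.Lib.Pet695
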