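import Mathlib

/-!
# Petersson pairing via partition functions: abstract adjointness

`IsPartFn a χ`: `χ ≥ 0` is measurable, integrable for the invariant measure of the upper half
plane and `∑ i, χ (a i • τ) = 1` for a countable family `a i` of elements of `GL(2,ℝ)`.
`pet k χ f g = ∫ χ · conj f · g · y^k dμ`.

Main result `pet_sum_slash_adjoint`: if `Δ = ⊔ (a i) (r j)` is stable under
`δ ↦ c • δ⁻¹` and `det δ = c` on `Δ`, then `∑ j, · ∣[k] r j` is self-adjoint for `pet`.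
-/

set_option autoImplicit false

open UpperHalfPlane MeasureTheory
open scoped MatrixGroups ModularForm ComplexConjugate

noncomputable section

namespace Fermat.Agent.Lib.Pet695

/-- partition function with respect to a family of elements of `GL(2,ℝ)` -/
structure IsPartFn {I : Type*} (a : I → GL (Fin 2) ℝ) (χ : ℍ → ℝ) : Prop where
  meas : Measurable χ
  nonneg : ∀ τ, 0 ≤ χ τ
  hasSum : ∀ τ, HasSum (fun i => χ (a i • τ)) 1
  integrable : Integrable χ

/-- The Petersson pairing computed with the partition function `χ`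
(conjugate-linear in the first variable, as Mathlib's `petersson`). -/
def pet (k : ℤ) (χ : ℍ → ℝ) (f g : ℍ → ℂ) : ℂ :=
  ∫ τ, (χ τ : ℂ) * petersson k f g τ

/-- Admissible functions: continuous with bounded Petersson norm. -/
structure IsAdm (k : ℤ) (f : ℍ → ℂ) : Prop where
  cont : Continuous f
  bdd : ∃ C, ∀ τ, ‖petersson k f f τ‖ ≤ C

section basic

variable {I : Type*} {a : I → GL (Fin 2) ℝ} {χ : ℍ → ℝ}

theorem IsPartFn.le_one (hχ : IsPartFn a χ) (i : I) (τ : ℍ) : χ (a i • τ) ≤ 1 :=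
  le_hasSum (hχ.hasSum τ) i (fun _ _ => hχ.nonneg _)

theorem IsPartFn.sum_le_one (hχ : IsPartFn a χ) (s : Finset I) (τ : ℍ) :
    ∑ i ∈ s, χ (a i • τ) ≤ 1 :=
  sum_le_hasSum s (fun _ _ => hχ.nonneg _) (hχ.hasSum τ)

theorem measurable_smul_uhp (δ : GL (Fin 2) ℝ) : Measurable fun τ : ℍ => δ • τ :=
  (continuous_const_smul δ).measurable

theorem norm_petersson (k : ℤ) (f g : ℍ → ℂ) (τ : ℍ) :
    ‖petersson k f g τ‖ = ‖f τ‖ * ‖g τ‖ * τ.im ^ k := by
  have h : (0 : ℝ) < τ.im ^ k := zpow_pos τ.im_pos k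
  simp only [petersson, norm_mul, Complex.norm_conj, norm_zpow, Complex.norm_real,
    Real.norm_of_nonneg τ.im_pos.le]

theorem norm_petersson_sq (k : ℤ) (f g : ℍ → ℂ) (τ : ℍ) :
    ‖petersson k f g τ‖ ^ 2 = ‖petersson k f f τ‖ * ‖petersson k g g τ‖ := by
  rw [norm_petersson, norm_petersson, norm_petersson]; ring

theorem norm_petersson_le {k : ℤ} {f g : ℍ → ℂ} {Cf Cg : ℝ} (τ : ℍ)
    (hf : ‖petersson k f f τ‖ ≤ Cf) (hg : ‖petersson k g g τ‖ ≤ Cg) :
    ‖petersson k f g τ‖ ≤ Real.sqrt (Cf * Cg) := by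
  apply Real.le_sqrt_of_sq_le
  rw [norm_petersson_sq]
  exact mul_le_mul hf hg (norm_nonneg _) ((norm_nonneg _).trans hf)

theorem continuous_slash (k : ℤ) {f : ℍ → ℂ} (hf : Continuous f) (δ : GL (Fin 2) ℝ) :
    Continuous (f ∣[k] δ) := by
  have h : (f ∣[k] δ) = fun τ : ℍ =>
      σ δ (f (δ • τ)) * |δ.det.val| ^ (k - 1) * denom δ τ ^ (-k) := by
    funext τ; exact ModularForm.slash_apply ..
  rw [h]
  have h1 : Continuous fun τ : ℍ => σ δ (f (δ • τ)) :=
    (σ δ).continuous.comp (hf.comp (continuous_const_smul δ))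
  have h2 : Continuous fun τ : ℍ => denom δ τ ^ (-k) := by
    refine Continuous.zpow₀ ?_ _ (fun τ => Or.inl (denom_ne_zero δ τ))
    unfold denom; fun_prop
  exact (h1.mul continuous_const).mul h2

theorem IsAdm.slash {k : ℤ} {f : ℍ → ℂ} (hf : IsAdm k f) (δ : GL (Fin 2) ℝ) :
    IsAdm k (f ∣[k] δ) := by
  refine ⟨continuous_slash k hf.cont δ, ?_⟩
  obtain ⟨C, hC⟩ := hf.bdd
  refine ⟨|δ.det.val| ^ (k - 2) * C, fun τ => ?_⟩
  rw [petersson_slash, norm_mul, norm_σ, norm_zpow, Complex.norm_real, Real.norm_eq_abs, abs_abs]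
  exact mul_le_mul_of_nonneg_left (hC _) (zpow_nonneg (abs_nonneg _) _)

theorem IsAdm.exists_bound {k : ℤ} {f g : ℍ → ℂ} (hf : IsAdm k f) (hg : IsAdm k g) :
    ∃ B, 0 ≤ B ∧ ∀ τ, ‖petersson k f g τ‖ ≤ B := by
  obtain ⟨Cf, hCf⟩ := hf.bdd
  obtain ⟨Cg, hCg⟩ := hg.bdd
  exact ⟨Real.sqrt (Cf * Cg), Real.sqrt_nonneg _, fun τ => norm_petersson_le τ (hCf τ) (hCg τ)⟩

theorem IsAdm.continuous_petersson {k : ℤ} {f g : ℍ → ℂ} (hf : IsAdm k f) (hg : IsAdm k g) :
    Continuous (petersson k f g) :=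
  petersson_continuous k hf.cont hg.cont

end basic

section unfold

variable {I : Type*} {a : I → GL (Fin 2) ℝ} {χ : ℍ → ℝ}

theorem IsPartFn.integrable_mul (hχ : IsPartFn a χ) {Ψ : ℍ → ℂ} (hΨ : Measurable Ψ) {B : ℝ}
    (hB : ∀ τ, ‖Ψ τ‖ ≤ B) : Integrable (fun w => (χ w : ℂ) * Ψ w) := by
  have h1 : Integrable (fun w => B * χ w) := hχ.integrable.const_mul B
  refine h1.mono' ((Complex.measurable_ofReal.comp hχ.meas).mul hΨ).aestronglyMeasurable
    (Filter.Eventually.of_forall fun w => ?_)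
  rw [norm_mul, Complex.norm_real, Real.norm_of_nonneg (hχ.nonneg w), mul_comm]
  exact mul_le_mul_of_nonneg_right (hB w) (hχ.nonneg w)

theorem IsPartFn.integrable_mul_mul (hχ : IsPartFn a χ) (i : I) (r : GL (Fin 2) ℝ)
    {Ψ : ℍ → ℂ} (hΨ : Measurable Ψ) {B : ℝ} (hB : ∀ τ, ‖Ψ τ‖ ≤ B) :
    Integrable (fun w => (χ w : ℂ) * (χ (a i • r • w) : ℂ) * Ψ w) := by
  have hm : Measurable fun w : ℍ => (χ (a i • r • w) : ℂ) :=
    Complex.measurable_ofReal.comp (hχ.meas.comp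
      ((measurable_smul_uhp (a i)).comp (measurable_smul_uhp r)))
  have h := hχ.integrable_mul (Ψ := fun w => (χ (a i • r • w) : ℂ) * Ψ w) (hm.mul hΨ) (B := B)
    (fun w => by
      rw [norm_mul, Complex.norm_real, Real.norm_of_nonneg (hχ.nonneg _)]
      calc χ (a i • r • w) * ‖Ψ w‖ ≤ 1 * B :=
            mul_le_mul (hχ.le_one i _) (hB w) (norm_nonneg _) zero_le_one
        _ = B := one_mul B)
  refine h.congr (Filter.Eventually.of_forall fun w => ?_)
  simp only [mul_assoc]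

/-- Unfolding against the partition function. -/
theorem IsPartFn.hasSum_integral [Countable I] (hχ : IsPartFn a χ) (r : GL (Fin 2) ℝ)
    {Ψ : ℍ → ℂ} (hΨ : Measurable Ψ) {B : ℝ} (hB : ∀ τ, ‖Ψ τ‖ ≤ B) :
    HasSum (fun i => ∫ w, (χ w : ℂ) * (χ (a i • r • w) : ℂ) * Ψ w)
      (∫ w, (χ w : ℂ) * Ψ w) := by
  have hB0 : 0 ≤ B := (norm_nonneg _).trans (hB UpperHalfPlane.I)
  set F : I → ℍ → ℂ := fun i w => (χ w : ℂ) * (χ (a i • r • w) : ℂ) * Ψ w with hF
  have hint : ∀ i, Integrable (F i) := fun i => hχ.integrable_mul_mul i r hΨ hB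
  have hnorm : ∀ i w, ‖F i w‖ = χ w * χ (a i • r • w) * ‖Ψ w‖ := by
    intro i w
    simp only [hF, norm_mul, Complex.norm_real, Real.norm_of_nonneg (hχ.nonneg _)]
  have hsum : Summable fun i => ∫ w, ‖F i w‖ := by
    refine summable_of_sum_le (c := B * ∫ w, χ w) (fun i => integral_nonneg fun w => norm_nonneg _)
      (fun s => ?_)
    rw [← integral_finsetSum _ (fun i _ => (hint i).norm), ← integral_const_mul]
    refine integral_mono (integrable_finsetSum _ fun i _ => (hint i).norm)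
      (hχ.integrable.const_mul B) (fun w => ?_)
    simp only [hnorm]
    calc ∑ i ∈ s, χ w * χ (a i • r • w) * ‖Ψ w‖
        = (∑ i ∈ s, χ (a i • r • w)) * (χ w * ‖Ψ w‖) := by
          rw [Finset.sum_mul]; exact Finset.sum_congr rfl fun i _ => by ring
      _ ≤ 1 * (χ w * B) := by
          refine mul_le_mul (hχ.sum_le_one s _) ?_ (mul_nonneg (hχ.nonneg _) (norm_nonneg _))
            zero_le_one
          exact mul_le_mul_of_nonneg_left (hB w) (hχ.nonneg w)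
      _ = B * χ w := by ring
  have h := hasSum_integral_of_summable_integral_norm hint hsum
  have h2 : ∀ w, ∑' i, F i w = (χ w : ℂ) * Ψ w := by
    intro w
    have h3 : HasSum (fun i => (χ (a i • r • w) : ℂ)) ((1 : ℝ) : ℂ) :=
      Complex.hasSum_ofReal.mpr (hχ.hasSum (r • w))  -- placeholder name
    have h4 : HasSum (fun i => F i w) ((χ w : ℂ) * ((1 : ℝ) : ℂ) * Ψ w) :=
      (h3.mul_left (χ w : ℂ)).mul_right (Ψ w)
    rw [h4.tsum_eq]; simp
  simpa only [h2] using h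

end unfold

section scalar

variable {A B : GL (Fin 2) ℝ} {c : ℝ}

theorem det_of_val_eq_smul (h : A.val = c • B.val) : A.det.val = c ^ 2 * B.det.val := by
  rw [Matrix.GeneralLinearGroup.val_det_apply, Matrix.GeneralLinearGroup.val_det_apply, h,
    Matrix.det_smul, Fintype.card_fin]

theorem σ_of_val_eq_smul (hc : c ≠ 0) (h : A.val = c • B.val) : σ A = σ B := by
  have hc2 : 0 < c ^ 2 := by positivity
  unfold σ
  rw [det_of_val_eq_smul h]
  by_cases hB : 0 < B.det.val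
  · rw [if_pos hB, if_pos (mul_pos hc2 hB)]
  · rw [if_neg hB, if_neg]
    intro h'
    exact hB ((mul_pos_iff_of_pos_left hc2).mp h')

theorem num_of_val_eq_smul (h : A.val = c • B.val) (z : ℂ) : num A z = c * num B z := by
  simp only [num, h, Matrix.smul_apply, smul_eq_mul, Complex.ofReal_mul]; ring

theorem denom_of_val_eq_smul (h : A.val = c • B.val) (z : ℂ) : denom A z = c * denom B z := by
  simp only [denom, h, Matrix.smul_apply, smul_eq_mul, Complex.ofReal_mul]; ring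

theorem smul_of_val_eq_smul (hc : c ≠ 0) (h : A.val = c • B.val) (τ : ℍ) : A • τ = B • τ := by
  ext : 1
  rw [coe_smul, coe_smul, σ_of_val_eq_smul hc h, num_of_val_eq_smul h, denom_of_val_eq_smul h]
  congr 1
  have hc' : (c : ℂ) ≠ 0 := by exact_mod_cast hc
  rw [mul_div_mul_left _ _ hc']

theorem slash_of_val_eq_smul (k : ℤ) (hc : 0 < c) (h : A.val = c • B.val) (f : ℍ → ℂ) :
    f ∣[k] A = ((c : ℂ) ^ (k - 2)) • (f ∣[k] B) := by
  have hc' : (c : ℂ) ≠ 0 := by exact_mod_cast hc.ne'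
  funext τ
  rw [Pi.smul_apply, ModularForm.slash_apply, ModularForm.slash_apply,
    σ_of_val_eq_smul hc.ne' h, smul_of_val_eq_smul hc.ne' h, denom_of_val_eq_smul h,
    det_of_val_eq_smul h, abs_mul, abs_of_pos (by positivity : (0 : ℝ) < c ^ 2), smul_eq_mul,
    Complex.ofReal_mul, mul_zpow, mul_zpow, Complex.ofReal_pow]
  have e1 : ((c : ℂ) ^ 2) ^ (k - 1) * (c : ℂ) ^ (-k) = (c : ℂ) ^ (k - 2) := by
    rw [← zpow_natCast, ← zpow_mul, ← zpow_add₀ hc']
    congr 1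
    push_cast; ring
  calc (σ B) (f (B • τ)) * (((c : ℂ) ^ 2) ^ (k - 1) * ((|B.det.val| : ℝ) : ℂ) ^ (k - 1))
        * ((c : ℂ) ^ (-k) * denom B τ ^ (-k))
      = (((c : ℂ) ^ 2) ^ (k - 1) * (c : ℂ) ^ (-k))
        * ((σ B) (f (B • τ)) * ((|B.det.val| : ℝ) : ℂ) ^ (k - 1) * denom B τ ^ (-k)) := by ring
    _ = _ := by rw [e1]

end scalar

section adjoint

variable {k : ℤ} {I : Type*} {a : I → GL (Fin 2) ℝ} {χ : ℍ → ℝ}

theorem petersson_smul_left (k : ℤ) (c : ℂ) (f g : ℍ → ℂ) (τ : ℍ) :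
    petersson k (c • f) g τ = conj c * petersson k f g τ := by
  simp only [petersson, Pi.smul_apply, smul_eq_mul, map_mul]; ring

theorem petersson_sum_left (k : ℤ) {ι : Type*} (s : Finset ι) (f : ι → ℍ → ℂ) (g : ℍ → ℂ)
    (τ : ℍ) : petersson k (∑ j ∈ s, f j) g τ = ∑ j ∈ s, petersson k (f j) g τ := by
  simp only [petersson, Finset.sum_apply, map_sum, Finset.sum_mul]

theorem petersson_sum_right (k : ℤ) {ι : Type*} (s : Finset ι) (f : ℍ → ℂ) (g : ι → ℍ → ℂ)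
    (τ : ℍ) : petersson k f (∑ j ∈ s, g j) τ = ∑ j ∈ s, petersson k f (g j) τ := by
  simp only [petersson, Finset.sum_apply, Finset.mul_sum, Finset.sum_mul]

/-- The key pointwise identity behind adjointness. -/
theorem petersson_star {δ δ' : GL (Fin 2) ℝ} {c : ℝ} (hc : 0 < c) (hdet : δ.det.val = c)
    (h : δ'.val = c • (δ⁻¹).val) (f g : ℍ → ℂ) (u : ℍ) :
    petersson k f (g ∣[k] δ) (δ⁻¹ • u) = petersson k (f ∣[k] δ') g u := by
  have hc' : (c : ℂ) ≠ 0 := by exact_mod_cast hc.ne'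
  have h1 := petersson_slash k f (g ∣[k] δ) δ⁻¹ u
  have h2 : (g ∣[k] δ) ∣[k] δ⁻¹ = g := by
    rw [← SlashAction.slash_mul, mul_inv_cancel, SlashAction.slash_one]
  have hdet' : (δ⁻¹).det.val = c⁻¹ := by
    rw [map_inv, Units.val_inv_eq_inv_val, hdet]
  have hσ : σ δ⁻¹ = .refl ℝ ℂ := by
    unfold σ; rw [if_pos]; rw [hdet']; exact inv_pos.mpr hc
  rw [h2, hσ, hdet', abs_of_pos (inv_pos.mpr hc)] at h1
  rw [slash_of_val_eq_smul k hc h f, petersson_smul_left, h1]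
  simp only [ContinuousAlgEquiv.refl_apply, map_zpow₀, Complex.conj_ofReal, Complex.ofReal_inv]
  rw [← mul_assoc, ← mul_zpow, mul_inv_cancel₀ hc', one_zpow, one_mul]

theorem integral_star_eq {δ δ' : GL (Fin 2) ℝ} {c : ℝ} (hc : 0 < c) (hdet : δ.det.val = c)
    (h : δ'.val = c • (δ⁻¹).val) (χ : ℍ → ℝ) (f g : ℍ → ℂ) :
    ∫ w, (χ w : ℂ) * (χ (δ • w) : ℂ) * petersson k f (g ∣[k] δ) w
      = ∫ u, (χ u : ℂ) * (χ (δ' • u) : ℂ) * petersson k (f ∣[k] δ') g u := by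
  have h1 := integral_smul_eq_self (μ := (volume : Measure ℍ))
    (fun u : ℍ => (χ (δ⁻¹ • u) : ℂ) * (χ u : ℂ) * petersson k f (g ∣[k] δ) (δ⁻¹ • u)) (g := δ)
  simp only [inv_smul_smul] at h1
  rw [h1]
  congr 1
  funext u
  rw [petersson_star hc hdet h, smul_of_val_eq_smul hc.ne' h]
  ring

theorem hasSum_prod_of_fintype {α ι E : Type*} [Fintype ι] [AddCommMonoid E]
    [TopologicalSpace E] [ContinuousAdd E] {G : α × ι → E} {S : ι → E}
    (h : ∀ j, HasSum (fun i => G (i, j)) (S j)) : HasSum G (∑ j, S j) := by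
  classical
  have h1 : ∀ j, HasSum (fun p : α × ι => if p.2 = j then G p else 0) (S j) := by
    intro j
    have hinj : Function.Injective fun i : α => (i, j) := fun x y hxy => (Prod.mk.inj hxy).1
    refine (hinj.hasSum_iff ?_).mp ?_
    · rintro ⟨x, y⟩ hx
      have : y ≠ j := by
        rintro rfl
        exact hx ⟨x, rfl⟩
      simp [this]
    · simpa [Function.comp_def] using h j
  have h2 := hasSum_sum (s := Finset.univ) fun j _ => h1 j
  have h3 : (fun p : α × ι => ∑ j : ι, if p.2 = j then G p else 0) = G := by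
    funext p
    rw [Finset.sum_ite_eq]
    simp
  rwa [h3] at h2

/-- Sum over `Δ = ⊔ a i * r j` of the unfolded integrals. -/
theorem IsPartFn.hasSum_integral_Delta [Countable I] (hχ : IsPartFn a χ) {ι : Type*} [Fintype ι]
    (r : ι → GL (Fin 2) ℝ) (Δ : Set (GL (Fin 2) ℝ)) (e : I × ι ≃ Δ)
    (he : ∀ i j, (e (i, j) : GL (Fin 2) ℝ) = a i * r j)
    (Φ : GL (Fin 2) ℝ → ℍ → ℂ) (hΦ : ∀ i j, Φ (a i * r j) = Φ (r j))
    (hΦm : ∀ j, Measurable (Φ (r j))) {B : ℝ} (hΦB : ∀ j τ, ‖Φ (r j) τ‖ ≤ B) :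
    HasSum (fun δ : Δ => ∫ w, (χ w : ℂ) * (χ ((δ : GL (Fin 2) ℝ) • w) : ℂ) * Φ δ w)
      (∑ j, ∫ w, (χ w : ℂ) * Φ (r j) w) := by
  rw [← e.hasSum_iff]
  refine hasSum_prod_of_fintype fun j => ?_
  have h := hχ.hasSum_integral (r j) (hΦm j) (hΦB j)
  have hfun : (fun i => ((fun δ : Δ =>
        ∫ w, (χ w : ℂ) * (χ ((δ : GL (Fin 2) ℝ) • w) : ℂ) * Φ δ w) ∘ e) (i, j))
      = fun i => ∫ w, (χ w : ℂ) * (χ (a i • r j • w) : ℂ) * Φ (r j) w := by
    funext i
    simp only [Function.comp_apply, he, hΦ, mul_smul]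
  rw [hfun]
  exact h

/-- **Abstract adjointness.**  If `Δ = ⊔ᵢⱼ a i * r j` consists of matrices of determinant `c > 0`
and is stable under `δ ↦ c • δ⁻¹`, then `f ↦ ∑ j, f ∣[k] r j` is self-adjoint for the Petersson
pairing on admissible functions invariant under all `a i`. -/
theorem pet_sum_slash_adjoint [Countable I] (hχ : IsPartFn a χ) {ι : Type*} [Fintype ι]
    (r : ι → GL (Fin 2) ℝ) {c : ℝ} (hc : 0 < c) (Δ : Set (GL (Fin 2) ℝ))
    (hΔdet : ∀ δ ∈ Δ, δ.det.val = c)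
    (e : I × ι ≃ Δ) (he : ∀ i j, (e (i, j) : GL (Fin 2) ℝ) = a i * r j)
    (star : Δ ≃ Δ)
    (hstar : ∀ δ : Δ, (star δ : GL (Fin 2) ℝ).val = c • ((δ : GL (Fin 2) ℝ)⁻¹).val)
    {f g : ℍ → ℂ} (hf : IsAdm k f) (hg : IsAdm k g)
    (hfa : ∀ i, f ∣[k] a i = f) (hga : ∀ i, g ∣[k] a i = g) :
    pet k χ (∑ j, f ∣[k] r j) g = pet k χ f (∑ j, g ∣[k] r j) := by
  -- bounds
  have hB1 : ∀ j, ∃ B, ∀ τ, ‖petersson k f (g ∣[k] r j) τ‖ ≤ B := fun j => by
    obtain ⟨B, -, hB⟩ := hf.exists_bound (hg.slash (r j))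
    exact ⟨B, hB⟩
  have hB2 : ∀ j, ∃ B, ∀ τ, ‖petersson k (f ∣[k] r j) g τ‖ ≤ B := fun j => by
    obtain ⟨B, -, hB⟩ := (hf.slash (r j)).exists_bound hg
    exact ⟨B, hB⟩
  choose B1 hB1 using hB1
  choose B2 hB2 using hB2
  obtain ⟨M1, hM1⟩ : ∃ M, ∀ j, B1 j ≤ M := (Finite.bddAbove_range B1).imp fun M hM j =>
    hM ⟨j, rfl⟩
  obtain ⟨M2, hM2⟩ : ∃ M, ∀ j, B2 j ≤ M := (Finite.bddAbove_range B2).imp fun M hM j =>
    hM ⟨j, rfl⟩
  have hS1 := hχ.hasSum_integral_Delta r Δ e he (fun δ => petersson k f (g ∣[k] δ))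
    (fun i j => by rw [SlashAction.slash_mul, hga i])
    (fun j => (hf.continuous_petersson (hg.slash (r j))).measurable)
    (B := M1) (fun j τ => (hB1 j τ).trans (hM1 j))
  have hS2 := hχ.hasSum_integral_Delta r Δ e he (fun δ => petersson k (f ∣[k] δ) g)
    (fun i j => by rw [SlashAction.slash_mul, hfa i])
    (fun j => ((hf.slash (r j)).continuous_petersson hg).measurable)
    (B := M2) (fun j τ => (hB2 j τ).trans (hM2 j))
  have hfun : (fun δ : Δ => ∫ w, (χ w : ℂ) * (χ ((δ : GL (Fin 2) ℝ) • w) : ℂ)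
        * petersson k f (g ∣[k] (δ : GL (Fin 2) ℝ)) w)
      = (fun δ : Δ => ∫ w, (χ w : ℂ) * (χ ((δ : GL (Fin 2) ℝ) • w) : ℂ)
        * petersson k (f ∣[k] (δ : GL (Fin 2) ℝ)) g w) ∘ star := by
    funext δ
    exact integral_star_eq hc (hΔdet δ δ.2) (hstar δ) χ f g
  rw [hfun, star.hasSum_iff] at hS1
  have hEq := hS1.unique hS2
  -- linearity
  have hL : pet k χ (∑ j, f ∣[k] r j) g = ∑ j, ∫ w, (χ w : ℂ) * petersson k (f ∣[k] r j) g w := by
    unfold pet
    rw [← integral_finsetSum]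
    · congr 1; funext w; rw [petersson_sum_left, Finset.mul_sum]
    · intro j _
      exact hχ.integrable_mul ((hf.slash (r j)).continuous_petersson hg).measurable (hB2 j)
  have hR : pet k χ f (∑ j, g ∣[k] r j) = ∑ j, ∫ w, (χ w : ℂ) * petersson k f (g ∣[k] r j) w := by
    unfold pet
    rw [← integral_finsetSum]
    · congr 1; funext w; rw [petersson_sum_right, Finset.mul_sum]
    · intro j _
      exact hχ.integrable_mul (hf.continuous_petersson (hg.slash (r j))).measurable (hB1 j)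
  rw [hL, hR, hEq]

end adjoint

end Fermat.Agent.Lib.Pet695
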