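import Fermat.Agent.Lib.Pet695.Fold
import Fermat.Agent.Lib.Pet695.Cosets

/-!
# Self-adjointness of `T_ℓ` (`ℓ ∤ N`) for the Petersson pairing: the `GL(2,ℝ)` layer
-/

set_option autoImplicit false

open Matrix UpperHalfPlane MeasureTheory ModularForm
open scoped MatrixGroups ModularForm

noncomputable section

namespace Fermat.Agent.Lib.Pet695

variable {N ℓ : ℕ}

/-- the real matrix of an element of `Δ`, as an element of `GL(2,ℝ)` -/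
def toGL (hℓ0 : ℓ ≠ 0) (M : DeltaZ N ℓ) : GL (Fin 2) ℝ :=
  Matrix.GeneralLinearGroup.mkOfDetNeZero (M.1.map (Int.cast : ℤ → ℝ)) (by
    have h := Int.cast_det (R := ℝ) M.1
    rw [M.2.1] at h
    rw [← h]
    exact_mod_cast hℓ0)

theorem toGL_val (hℓ0 : ℓ ≠ 0) (M : DeltaZ N ℓ) :
    ((toGL hℓ0 M : GL (Fin 2) ℝ) : Matrix (Fin 2) (Fin 2) ℝ) = M.1.map (Int.cast : ℤ → ℝ) := rfl

theorem toGL_injective (hℓ0 : ℓ ≠ 0) : Function.Injective (toGL (N := N) hℓ0) := by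
  intro M M' h
  have h1 : M.1.map (Int.cast : ℤ → ℝ) = M'.1.map (Int.cast : ℤ → ℝ) := by
    rw [← toGL_val hℓ0 M, ← toGL_val hℓ0 M', h]
  exact Subtype.ext (Matrix.map_injective Int.cast_injective h1)

theorem det_toGL (hℓ0 : ℓ ≠ 0) (M : DeltaZ N ℓ) : (toGL hℓ0 M).det.val = (ℓ : ℝ) := by
  rw [Matrix.GeneralLinearGroup.val_det_apply, toGL_val]
  have h := Int.cast_det (R := ℝ) M.1
  rw [M.2.1] at h
  rw [← h]
  simp

/-- the representatives in `GL(2,ℝ)` (the Prelude's Hecke matrices) -/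
def repGL (ℓ : ℕ) : Option (Fin ℓ) → GL (Fin 2) ℝ
  | none => heckeDiagMatrix ℓ
  | some j => heckeMatrix ℓ j

theorem repGL_val (hℓ0 : ℓ ≠ 0) (x : Option (Fin ℓ)) :
    ((repGL ℓ x : GL (Fin 2) ℝ) : Matrix (Fin 2) (Fin 2) ℝ)
      = (repZ ℓ x).map (Int.cast : ℤ → ℝ) := by
  cases x with
  | none =>
    rw [repGL, val_heckeDiagMatrix hℓ0, repZ]
    ext i j; fin_cases i <;> fin_cases j <;> simp
  | some j =>
    rw [repGL, val_heckeMatrix hℓ0, repZ]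
    ext i j'; fin_cases i <;> fin_cases j' <;> simp

/-- the coercion `Γ₀(N) → GL(2,ℝ)` -/
def aGL (N : ℕ) (g : CongruenceSubgroup.Gamma0 N) : GL (Fin 2) ℝ :=
  Matrix.SpecialLinearGroup.mapGL ℝ (g : SL(2, ℤ))

theorem toGL_eZ (hℓ : ℓ.Prime) (hℓN : ¬ ℓ ∣ N) (g : CongruenceSubgroup.Gamma0 N)
    (x : Option (Fin ℓ)) : toGL hℓ.ne_zero (eZ hℓ hℓN (g, x)) = aGL N g * repGL ℓ x := by
  apply Units.ext
  rw [toGL_val, eZ_apply, Units.val_mul, repGL_val hℓ.ne_zero, aGL]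
  have h1 : ((Matrix.SpecialLinearGroup.mapGL ℝ (g : SL(2, ℤ)) : GL (Fin 2) ℝ) :
      Matrix (Fin 2) (Fin 2) ℝ) = ((g : SL(2, ℤ)).val).map (Int.cast : ℤ → ℝ) := by
    simp
  rw [h1]
  exact Matrix.map_mul (f := Int.castRingHom ℝ)

theorem toGL_starZ (hℓ0 : ℓ ≠ 0) (M : DeltaZ N ℓ) :
    ((toGL hℓ0 (starZ M) : GL (Fin 2) ℝ) : Matrix (Fin 2) (Fin 2) ℝ)
      = (ℓ : ℝ) • (((toGL hℓ0 M)⁻¹ : GL (Fin 2) ℝ) : Matrix (Fin 2) (Fin 2) ℝ) := by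
  have hℓ' : (ℓ : ℝ) ≠ 0 := by exact_mod_cast hℓ0
  have hdet : (M.1.map (Int.cast : ℤ → ℝ)).det = (ℓ : ℝ) := by
    have h := Int.cast_det (R := ℝ) M.1
    rw [M.2.1] at h
    rw [← h]; simp
  rw [Matrix.coe_units_inv, toGL_val, toGL_val, Matrix.inv_def, hdet, Ring.inverse_eq_inv',
    smul_smul, mul_inv_cancel₀ hℓ', one_smul]
  show (M.1.adjugate).map (Int.cast : ℤ → ℝ) = _
  exact (Int.castRingHom ℝ).map_adjugate M.1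

/-- `Δ` inside `GL(2,ℝ)` -/
def DeltaGL (N ℓ : ℕ) (hℓ0 : ℓ ≠ 0) : Set (GL (Fin 2) ℝ) := Set.range (toGL (N := N) hℓ0)

/-- coset decomposition in `GL(2,ℝ)` -/
def eGL (hℓ : ℓ.Prime) (hℓN : ¬ ℓ ∣ N) :
    CongruenceSubgroup.Gamma0 N × Option (Fin ℓ) ≃ DeltaGL N ℓ hℓ.ne_zero :=
  (eZ hℓ hℓN).trans (Equiv.ofInjective _ (toGL_injective hℓ.ne_zero))

theorem eGL_apply (hℓ : ℓ.Prime) (hℓN : ¬ ℓ ∣ N) (g : CongruenceSubgroup.Gamma0 N)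
    (x : Option (Fin ℓ)) :
    ((eGL hℓ hℓN (g, x) : DeltaGL N ℓ hℓ.ne_zero) : GL (Fin 2) ℝ) = aGL N g * repGL ℓ x := by
  rw [← toGL_eZ hℓ hℓN]
  rfl

/-- the involution `δ ↦ ℓ δ⁻¹` of `Δ` -/
def starGL (hℓ0 : ℓ ≠ 0) : DeltaGL N ℓ hℓ0 ≃ DeltaGL N ℓ hℓ0 :=
  ((Equiv.ofInjective _ (toGL_injective (N := N) hℓ0)).symm.trans starZ).trans
    (Equiv.ofInjective _ (toGL_injective hℓ0))

theorem starGL_val (hℓ0 : ℓ ≠ 0) (δ : DeltaGL N ℓ hℓ0) :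
    ((starGL hℓ0 δ : GL (Fin 2) ℝ) : Matrix (Fin 2) (Fin 2) ℝ)
      = (ℓ : ℝ) • (((δ : GL (Fin 2) ℝ)⁻¹ : GL (Fin 2) ℝ) : Matrix (Fin 2) (Fin 2) ℝ) := by
  obtain ⟨δ, M, rfl⟩ := δ
  have h : (Equiv.ofInjective _ (toGL_injective (N := N) hℓ0)).symm
      ⟨toGL hℓ0 M, ⟨M, rfl⟩⟩ = M :=
    (Equiv.ofInjective _ (toGL_injective (N := N) hℓ0)).symm_apply_apply M
  show ((toGL hℓ0 (starZ ((Equiv.ofInjective _ (toGL_injective (N := N) hℓ0)).symm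
      ⟨toGL hℓ0 M, ⟨M, rfl⟩⟩)) : GL (Fin 2) ℝ) : Matrix (Fin 2) (Fin 2) ℝ) = _
  rw [h, toGL_starZ]

theorem det_of_mem_DeltaGL (hℓ0 : ℓ ≠ 0) {δ : GL (Fin 2) ℝ} (hδ : δ ∈ DeltaGL N ℓ hℓ0) :
    δ.det.val = (ℓ : ℝ) := by
  obtain ⟨M, rfl⟩ := hδ
  exact det_toGL hℓ0 M

theorem countable_SL2Z : Countable SL(2, ℤ) := by
  have h : Countable (Matrix (Fin 2) (Fin 2) ℤ) :=
    (inferInstance : Countable (Fin 2 → Fin 2 → ℤ))
  exact Function.Injective.countable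
    (f := fun g : SL(2, ℤ) => (g : Matrix (Fin 2) (Fin 2) ℤ))
    (fun x y hxy => Subtype.ext hxy)

theorem countable_gamma0 (N : ℕ) : Countable (CongruenceSubgroup.Gamma0 N) :=
  haveI := countable_SL2Z
  inferInstance

/-- **`T_ℓ` is self-adjoint** (function level): for admissible `Γ₀(N)`-invariant `f, g` and
any partition function `χ` for `Γ₀(N)`. -/
theorem pet_heckeT_adjoint (hℓ : ℓ.Prime) (hℓN : ¬ ℓ ∣ N) {χ : ℍ → ℝ}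
    (hχ : IsPartFn (aGL N) χ) {k : ℤ} {f g : ℍ → ℂ} (hf : IsAdm k f) (hg : IsAdm k g)
    (hfa : ∀ γ, f ∣[k] aGL N γ = f) (hga : ∀ γ, g ∣[k] aGL N γ = g) :
    pet k χ (heckeT k ℓ f) g = pet k χ f (heckeT k ℓ g) := by
  have hpos : (0 : ℝ) < ℓ := by exact_mod_cast hℓ.pos
  have := countable_gamma0 N
  have h := pet_sum_slash_adjoint hχ (repGL ℓ) hpos (DeltaGL N ℓ hℓ.ne_zero)
    (fun δ hδ => det_of_mem_DeltaGL hℓ.ne_zero hδ) (eGL hℓ hℓN) (eGL_apply hℓ hℓN)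
    (starGL hℓ.ne_zero) (starGL_val hℓ.ne_zero) hf hg hfa hga
  have hT : ∀ F : ℍ → ℂ, heckeT k ℓ F = ∑ x : Option (Fin ℓ), F ∣[k] repGL ℓ x := by
    intro F
    rw [heckeT_def, Fintype.sum_option, add_comm, ← Fin.sum_univ_eq_sum_range
      (fun j => F ∣[k] heckeMatrix ℓ j)]
    rfl
  rw [hT f, hT g]
  exact h

end Fermat.Agent.Lib.Pet695
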